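/-
PROJECT P (S44), TOP leaf (helper8): THE REDUCTION `J₀(M)(ℚ̄) → Pic⁰(κ)` IS ONTO (all points).

Frame: `ℓ` prime, `ℓ ∤ N`, `A` a valuation ring of `ℚ̄` over `ℓ`.

* `degree_mapDomain_section` : a section `s` of a degree-preserving map of places preserves the degree;
* `reductionModL_surjective` : `reductionModL A N : JZero N →+ JZeroC (ResidueField A) N` is onto
  (lift the places of the support through `S18/GaussFromHBar.placeReductionModL_surjective`).
-/
import Fermat.Agent.S18.GaussFromHBar
import Fermat.Agent.S37.Cusps.CuspCountFinal

set_option autoImplicit false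
set_option linter.unusedSectionVars false
set_option linter.style.haveILetI false
set_option synthInstance.maxHeartbeats 400000

noncomputable section

namespace Fermat.Agent.S44.Top.RedOnto

open ModularCurve AlgebraicCurve IsLocalRing

local notation "Kb" => AlgebraicClosure ℚ

section Abstract

variable {K F : Type*} [Field K] [Field F] [Algebra K F]
variable {K' F' : Type*} [Field K'] [Field F'] [Algebra K' F']

/-- a map of places that preserves the degrees preserves the degree of divisors -/
theorem degree_mapDomain_of_deg (s : Place K' F' → Place K F) (hs : ∀ Q, (s Q).deg = Q.deg)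
    (D : Divisor K' F') : Divisor.degree (Finsupp.mapDomain s D) = Divisor.degree D := by
  induction D using Finsupp.induction with
  | zero => rw [Finsupp.mapDomain_zero, map_zero, map_zero]
  | single_add Q n D _ _ ih =>
    rw [Finsupp.mapDomain_add, map_add, map_add, ih, Finsupp.mapDomain_single,
      Divisor.degree_single, Divisor.degree_single, hs]

end Abstract

variable {ℓ : ℕ} [Fact ℓ.Prime] (N : ℕ) [NeZero N] (A : ValuationSubring Kb)

/-- **The reduction `J₀(N)(ℚ̄) → Pic⁰` of the special fibre at a prime `ℓ ∤ N` is onto.** -/
theorem reductionModL_surjective (hA : A.LiesOverPrime ℓ) (hℓN : ¬ ℓ ∣ N) :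
    Function.Surjective (reductionModL A N) := by
  classical
  have h := Fermat.Agent.S37.Cusps.CuspCountFinal.reductionInputsModL N A hA hℓN
  have hr := isPlaceReductionModL_placeReductionModL h
  have hsurj := Fermat.Agent.S18.GaussFromHBar.placeReductionModL_surjective h
  intro ybar
  obtain ⟨Dbar, rfl⟩ := Pic0.mk_surjective ybar
  -- a section of the place map
  set s := Function.surjInv hsurj with hs
  have hrs : ∀ Q, placeReductionModL h (s Q) = Q := Function.surjInv_eq hsurj
  have hdeg : ∀ Q, (s Q).deg = Q.deg := fun Q => by
    have h1 := hr.1 (s Q)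
    rw [hrs Q] at h1
    exact h1.symm
  have hD0 : Finsupp.mapDomain s
      (Dbar : Divisor (ResidueField ↥A) ↥(modularFunctionFieldFullC (ResidueField ↥A) N)) ∈
      Divisor.degZero (K := Kb) (F := ↥(modularFunctionFieldBar N)) := by
    rw [Divisor.mem_degZero, degree_mapDomain_of_deg s hdeg]
    exact Divisor.mem_degZero.mp Dbar.2
  refine ⟨Pic0.mk ⟨_, hD0⟩, ?_⟩
  rw [reductionModL_mk h]
  congr 1
  apply Subtype.ext
  rw [coe_reductionDegZeroAlong]
  show Finsupp.mapDomain (placeReductionModL h) (Finsupp.mapDomain s _) = _
  rw [← Finsupp.mapDomain_comp]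
  have hid : (placeReductionModL h) ∘ s = id := funext hrs
  rw [hid, Finsupp.mapDomain_id]

end Fermat.Agent.S44.Top.RedOnto

end
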