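/-
PROJECT P (S44), TOP (helper8): THE ASSEMBLY OF MAZUR'S PRINCIPLE AT `p` FOR THE FREY CURVE.

Frame: `P` a Frey package, `p = P.p`, level `M p` with `p ∤ M`, `A` a valuation ring of `ℚ̄` over `p`,
`F : ChartFrame hA hpM` a standard frame (`RedStd F`, `RedStd2 F`).

* `modularRepOfLevel_of_rho1_ne_zero` : **item (v), first component**: a `T_l`-eigenclass `x` of the
  finite part of `J₀(M p)[p]` (eigenvalues `a_l(W)`, `l` good) whose FIRST reduction is non-zero gives
  `P.ModularRepOfLevel M`  [helper23 `Fin/RedHecke` (h2) + helper22 `Fin/KummerX0` (X5') +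
  helper25 `Exit/PushOld` + `Top/RedOnto`];
* `modularRepOfLevel_of_finRed` : **items (v) + (vi)**: if the whole image `V = φ(E[p])` of ENT lies in
  the finite part `finRed F`, and the second-component analogue of the first bullet is supplied
  (`h2`), then `P.ModularRepOfLevel M`  [helper17 `Fin/Omega` closes the case `V ≤ U_p`].
-/
import Fermat.Agent.S44.Ent.Frey
import Fermat.Agent.S44.Loc.WildPeu
import Fermat.Agent.S44.Fin.RedHecke
import Fermat.Agent.S44.Fin.KummerX0
import Fermat.Agent.S44.Fin.Omega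
import Fermat.Agent.S44.Exit.PushOld
import Fermat.Agent.S44.Top.RedOnto

set_option autoImplicit false
set_option linter.unusedSectionVars false
set_option linter.unusedVariables false
set_option linter.style.haveILetI false
set_option synthInstance.maxHeartbeats 400000

noncomputable section

namespace Fermat.Agent.S44.Top.Assemble

open WeierstrassCurve WeierstrassCurve.Affine WeierstrassCurve.Affine.Point
open ModularCurve AlgebraicCurve IsLocalRing
open Fermat.Agent.S33.X0.Frame Fermat.Agent.S33.KP.OneUnit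
open Fermat.Agent.S44.Fin.Red Fermat.Agent.S44.Fin.RedHecke Fermat.Agent.S44.Eis.HeckeNode
open Fermat.Agent.S30.Padic.TateModule

local notation "Qbar" => AlgebraicClosure ℚ
local notation "GQ" => (AlgebraicClosure ℚ ≃ₐ[ℚ] AlgebraicClosure ℚ)

attribute [local instance 2000] Fermat.Agent.S34.EulerX0.algResFk

variable {p : ℕ} [hp : Fact p.Prime] {M : ℕ} [NeZero M] {A : ValuationSubring Qbar} [NeZero p]
variable {hA : A.LiesOverPrime p} {hpM : ¬ p ∣ M}

local instance instNeZeroMul : NeZero (M * p) :=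
  ⟨Nat.mul_ne_zero (NeZero.ne M) (NeZero.ne p)⟩

/-- **(X5) assembled, abstract component**: `ρ` one of the two reductions of the finite part of
`J₀(M p)[p]`, with the Hecke relation (h2) as a hypothesis.  A `T_l`-eigenclass `x` with `ρ x ≠ 0`
gives a Tate vector of level `M` with the same eigenvalues. -/
theorem exists_tate_eigenvector_of_ne_zero {F : ChartFrame hA hpM}
    (ρ : finRed F →+ JZeroC (ResidueField ↥A) M) (hpρ : ∀ x, p • ρ x = 0)
    (hheck : ∀ (r : Nat.Primes), (r : ℕ) ≠ p → ¬ (r : ℕ) ∣ M → ∀ (x : finRed F) (a : ℤ),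
      heckeOperatorBar (M * p) r (x : JZero (M * p)) = a • (x : JZero (M * p)) →
      ∀ (y : JZero M) (c : ℤ), reductionModL A M y = c • ρ x →
        reductionModL A M (heckeOperatorBar M r y - a • y) = 0)
    (good : Set ℕ) (hgood : ∀ l ∈ good, ¬ l ∣ M ∧ l ≠ p) (a : ℕ → ℤ)
    (x : finRed F) (hx : ρ x ≠ 0)
    (heig : ∀ (l : ℕ) (hl : l.Prime), l ∈ good →
      heckeOperatorBar (M * p) ⟨l, hl⟩ (x : JZero (M * p)) = a l • (x : JZero (M * p))) :
    ∃ w : Tp p (JZero M), w.1 1 ≠ 0 ∧ ∀ (l : ℕ) (hl : l.Prime), l ∈ good →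
      heckeOperatorBar M ⟨l, hl⟩ (w.1 1) = a l • w.1 1 := by
  obtain ⟨z, hz⟩ := Fermat.Agent.S44.Top.RedOnto.reductionModL_surjective M A hA hpM (ρ x)
  refine Fermat.Agent.S44.Fin.KummerX0.exists_tate_eigenvector hpM A hA good hgood a z
    (by rw [hz]; exact hx) (by rw [hz]; exact hpρ x) ?_
  intro y hy l hl hlg
  have h := hheck ⟨l, hl⟩ (hgood l hlg).2 (hgood l hlg).1 x (a l)
    (heig l hl hlg) y 1 (by rw [hy, hz, one_smul])
  rw [map_sub, map_zsmul, sub_eq_zero] at h
  exact h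

/-- **(X5) assembled, first component** -/
theorem exists_tate_eigenvector_of_rho1_ne_zero {F : ChartFrame hA hpM} (hF : RedStd F)
    (good : Set ℕ) (hgood : ∀ l ∈ good, ¬ l ∣ M ∧ l ≠ p) (a : ℕ → ℤ)
    (x : finRed F) (hx : rho1 F x ≠ 0)
    (heig : ∀ (l : ℕ) (hl : l.Prime), l ∈ good →
      heckeOperatorBar (M * p) ⟨l, hl⟩ (x : JZero (M * p)) = a l • (x : JZero (M * p))) :
    ∃ w : Tp p (JZero M), w.1 1 ≠ 0 ∧ ∀ (l : ℕ) (hl : l.Prime), l ∈ good →
      heckeOperatorBar M ⟨l, hl⟩ (w.1 1) = a l • w.1 1 :=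
  exists_tate_eigenvector_of_ne_zero (rho1 F) nsmul_rho1
    (fun r hrp hrM x a hx y c hy => reductionModL_hecke_eq_rho1 hF r hrp hrM x a hx y c hy)
    good hgood a x hx heig

/-- The literal of the Hecke relation (h2) for a reduction `ρ` of the finite part (the shape of
`Fin/RedHecke.reductionModL_hecke_eq_rho1`). -/
def HeckeRel (F : ChartFrame hA hpM) (ρ : finRed F →+ JZeroC (ResidueField ↥A) M) : Prop :=
  ∀ (r : Nat.Primes), (r : ℕ) ≠ p → ¬ (r : ℕ) ∣ M → ∀ (x : finRed F) (a : ℤ),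
    heckeOperatorBar (M * p) r (x : JZero (M * p)) = a • (x : JZero (M * p)) →
    ∀ (y : JZero M) (c : ℤ), reductionModL A M y = c • ρ x →
      reductionModL A M (heckeOperatorBar M r y - a • y) = 0

theorem heckeRel_rho1 {F : ChartFrame hA hpM} (hF : RedStd F) : HeckeRel F (rho1 F) :=
  fun r hrp hrM x a hx y c hy => reductionModL_hecke_eq_rho1 hF r hrp hrM x a hx y c hy

/-! ### items (v) + (vi): from `V ≤ finRed F` to the level `M` -/

section Frey

variable (P : FreyPackage) [hPp : Fact P.p.Prime] [NeZero P.p] {M : ℕ} [NeZero M]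
variable {A : ValuationSubring Qbar} {hA : A.LiesOverPrime P.p} {hpM : ¬ P.p ∣ M}

local instance instNeZeroMulP : NeZero (M * P.p) :=
  ⟨Nat.mul_ne_zero (NeZero.ne M) (NeZero.ne P.p)⟩

open Fermat.Agent.S44.Loc.WildPeu Fermat.Agent.S44.Loc.FreyPeu in
/-- **TOP, items (v) + (vi).**  `φ : E[p] → J₀(M p)` the map of ENT (injective, `G_ℚ`-equivariant,
`T_l`-eigen with the eigenvalues of `W` at the good primes), `F` a standard frame, the Hecke relation
(h2) on both components.  If every `φ v` lies in the finite part `finRed F` (node orders `0 mod p`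
and regular reductions: the export of CORE + EIS + `Fin/Hnn`), then `P.ModularRepOfLevel M`. -/
theorem modularRepOfLevel_of_le_finRed (hpabc : (P.p : ℤ) ∣ P.a * P.b * P.c)
    (W : WeierstrassCurve ℤ) (hW : W.IsIntegralModelOf P.freyCurve)
    (φ : Submodule.torsionBy ℤ (P.freyCurve⁄Qbar).Point P.p →+ JZero (M * P.p))
    (hinj : Function.Injective φ)
    (hequiv : ∀ (σ : GQ) (v : Submodule.torsionBy ℤ (P.freyCurve⁄Qbar).Point P.p),
      φ (σ • v) = σ • φ v)
    (heig : ∀ (ℓ : ℕ) (hℓ : ℓ.Prime), W.IsGoodPrimeFor ℓ → ¬ ℓ ∣ M * P.p → ℓ ≠ P.p →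
      ∀ v : Submodule.torsionBy ℤ (P.freyCurve⁄Qbar).Point P.p,
        heckeOperatorBar (M * P.p) ⟨ℓ, hℓ⟩ (φ v) = W.apOfModel ℓ • φ v)
    {F : ChartFrame hA hpM} (hF : RedStd F) (hF2 : RedStd2 F)
    (hheck2 : HeckeRel F (rho2 F))
    (hV : ∀ v, φ v ∈ finRed F) : P.ModularRepOfLevel M := by
  classical
  by_contra hnot
  have hp2 : P.p ≠ 2 := by have := P.hp5; omega
  -- the good primes and the eigenvalues
  set good : Set ℕ := {l | W.IsGoodPrimeFor l ∧ ¬ l ∣ M ∧ l ≠ P.p} with hgooddef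
  have hgood : ∀ l ∈ good, ¬ l ∣ M ∧ l ≠ P.p := fun l hl => hl.2
  have hMp : ∀ l : ℕ, l.Prime → ¬ l ∣ M → l ≠ P.p → ¬ l ∣ M * P.p := by
    intro l hl hlM hlp hdvd
    rcases hl.dvd_mul.mp hdvd with h | h
    · exact hlM h
    · exact hlp ((Nat.prime_dvd_prime_iff_eq hl P.pp).mp h)
  -- a non-zero component gives the level `M`
  have key : ∀ (ρ : finRed F →+ JZeroC (ResidueField ↥A) M), (∀ x, P.p • ρ x = 0) →
      HeckeRel F ρ → ∀ v, ρ ⟨φ v, hV v⟩ = 0 := by
    intro ρ hpρ hρ v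
    by_contra hne
    obtain ⟨w, hw, hweig⟩ := exists_tate_eigenvector_of_ne_zero ρ hpρ hρ good hgood
      (fun l => W.apOfModel l) ⟨φ v, hV v⟩ hne
      (fun l hl hlg => heig l hl hlg.1 (hMp l hl hlg.2.1 hlg.2.2) hlg.2.2 v)
    exact hnot (Fermat.Agent.S44.Exit.PushOld.modularRepOfLevel_of_tate_good P W hW w hw
      (fun l hl hg hlM hlp => hweig l hl ⟨hg, hlM, hlp⟩))
  have h1 := key (rho1 F) nsmul_rho1 (heckeRel_rho1 hF)
  have h2 := key (rho2 F) nsmul_rho2 hheck2
  have hU : ∀ v, φ v ∈ oneUnit hA hpM P.p := fun v =>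
    mem_oneUnit_of_rho_eq_zero_of_redStd hF hF2 ⟨φ v, hV v⟩ (h1 v) (h2 v)
  -- the flag of the Frey curve at `p`
  obtain ⟨LE, hcard, htriv, -, -⟩ := exists_flag_wild P hpabc hA φ hinj hequiv
  exact Fermat.Agent.S44.Fin.Omega.false_of_injective_of_le_oneUnit hA hpM hp2
    (fun σ v => σ • v) φ hinj (fun σ _ v => hequiv σ v) LE
    (Fermat.Agent.S13.CU.FreyInputs.natCard_frey P) hcard htriv hU

end Frey

end Fermat.Agent.S44.Top.Assemble

end
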