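/-
PROJECT P (S44), TOP (helper8): THE FROZEN STATEMENT FROM ONE EXPORT.

`CoreExport` is the ONE statement that CORE + EIS + `Fin/Hnn` (+ the `V₂` twin of `Fin/RedHecke`) owe
to TOP: for the map `φ` of ENT there is a standard frame `F` at `A ∣ p` with the Hecke relation (h2)
on the second component and `φ(E[p]) ≤ finRed F`.

* `result_of_coreExport` : `CoreExport → ` the statement of S44, verbatim.
-/
import Fermat.Agent.S44.Top.Assemble
import Fermat.Prelude.Def_FreyPackage_IsConductorLevel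

set_option autoImplicit false
set_option linter.unusedSectionVars false
set_option linter.unusedVariables false
set_option linter.style.haveILetI false
set_option synthInstance.maxHeartbeats 400000

noncomputable section

namespace Fermat.Agent.S44.Top.Final

open WeierstrassCurve WeierstrassCurve.Affine WeierstrassCurve.Affine.Point
open ModularCurve AlgebraicCurve IsLocalRing FreyPackage
open Fermat.Agent.S33.X0.Frame
open Fermat.Agent.S44.Fin.Red Fermat.Agent.S44.Eis.HeckeNode Fermat.Agent.S44.Top.Assemble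

local notation "Qbar" => AlgebraicClosure ℚ
local notation "GQ" => (AlgebraicClosure ℚ ≃ₐ[ℚ] AlgebraicClosure ℚ)

attribute [local instance 2000] Fermat.Agent.S34.EulerX0.algResFk

/-- **THE EXPORT OWED TO TOP** (items (iii) + (iv) of TOP LOGIC v2): for every Frey package `P`, level
`M p` with `p ∤ M`, place `A ∣ p`, and every injective `G_ℚ`-equivariant `T_l`-eigen map
`φ : E[p] → J₀(M p)` (eigenvalues `a_l(W)` at the good primes), there is a standard chart frame `F` at
`A` with (h2) on the second component such that `φ(E[p])` lies in the finite part `finRed F`. -/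
def CoreExport : Prop :=
  ∀ (P : FreyPackage) [Fact P.p.Prime] [NeZero P.p] {M : ℕ} [NeZero M] [NeZero (M * P.p)]
    (hpM : ¬ P.p ∣ M) {A : ValuationSubring Qbar} (hA : A.LiesOverPrime P.p),
    (P.p : ℤ) ∣ P.a * P.b * P.c →
    GaloisRepIsIrreducible (K := AlgebraicClosure ℚ) ℚ P.freyCurve P.p →
    ∀ (W : WeierstrassCurve ℤ), W.IsIntegralModelOf P.freyCurve → W.Δ ≠ 0 →
    ∀ (φ : Submodule.torsionBy ℤ (P.freyCurve⁄Qbar).Point P.p →+ JZero (M * P.p)),
      Function.Injective φ →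
      (∀ (σ : GQ) (v : Submodule.torsionBy ℤ (P.freyCurve⁄Qbar).Point P.p),
        φ (σ • v) = σ • φ v) →
      (∀ (ℓ : ℕ) (hℓ : ℓ.Prime), W.IsGoodPrimeFor ℓ → ¬ ℓ ∣ M * P.p → ℓ ≠ P.p →
        ∀ v : Submodule.torsionBy ℤ (P.freyCurve⁄Qbar).Point P.p,
          heckeOperatorBar (M * P.p) ⟨ℓ, hℓ⟩ (φ v) = W.apOfModel ℓ • φ v) →
      ∃ F : ChartFrame hA hpM, RedStd F ∧ RedStd2 F ∧ HeckeRel F (rho2 F) ∧
        ∀ v, φ v ∈ finRed F

/-- **S44 from the export.** -/
theorem result_of_coreExport (hexp : CoreExport) (P : FreyPackage) {N : ℕ}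
    (hcond : P.IsConductorLevel N) (hpN : P.p ∣ N)
    (hirr : GaloisRepIsIrreducible (K := AlgebraicClosure ℚ) ℚ P.freyCurve P.p)
    (hmod : P.ModularRepOfLevel N) : ∃ M : ℕ, M ∣ N ∧ ¬ P.p ∣ M ∧ P.ModularRepOfLevel M := by
  haveI : Fact P.p.Prime := ⟨P.pp⟩
  haveI : NeZero P.p := ⟨P.pp.ne_zero⟩
  obtain ⟨M, rfl⟩ : ∃ M, N = M * P.p := ⟨N / P.p, (Nat.div_mul_cancel hpN).symm⟩
  have hM0 : M ≠ 0 := fun h => by
    have := hcond.pos
    rw [h, zero_mul] at this
    exact lt_irrefl _ this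
  haveI : NeZero M := ⟨hM0⟩
  haveI : NeZero (M * P.p) := ⟨Nat.mul_ne_zero hM0 P.pp.ne_zero⟩
  have hpM : ¬ P.p ∣ M := by
    rintro ⟨c, rfl⟩
    apply hcond.sq_not_dvd P.pp
    exact ⟨c, by ring⟩
  refine ⟨M, Dvd.intro _ rfl, hpM, ?_⟩
  obtain ⟨W, hW, hΔ, φ, hinj, hequiv, heig, -⟩ :=
    Fermat.Agent.S44.Ent.Frey.exists_phi_tors P hirr hmod
  obtain ⟨A, hA⟩ :=
    Fermat.Agent.Lib.FrobeniusExists.exists_valuationSubring_algebraicClosure P.p P.pp
  have hpabc := hcond.p_dvd_abc hpN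
  obtain ⟨F, hF, hF2, hheck2, hV⟩ :=
    hexp P hpM hA hpabc hirr W hW hΔ φ hinj hequiv heig
  exact modularRepOfLevel_of_le_finRed P hpabc W hW φ hinj hequiv heig hF hF2 hheck2 hV

end Fermat.Agent.S44.Top.Final

end
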