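/-
PROJECT P (S44), TOP (helper8): `CoreExport` FROM THE TWO CASES OF BLOCK (iv).

* `TameExport` : the composite export of CORE + EIS + `Fin/Hnn` for a class fixed by the wild
  inertia group `I₁`;
* `PeuExport` : the same for a class moved by some `σ ∈ I₁`, with the wild frame `B` of the class and
  the PEU bound `B.s + 1 ≤ p`;
* `coreExport_of_exports` : `TameExport → PeuExport → Final.CoreExport`.

The hypothesis `σ • x - x ∈ oneUnit` of the PEU case is NOT asked from anybody: it is the landed leaf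
`S33/KP/OneUnit.smul_sub_mem_oneUnit` (inertia moves every `p`-torsion class by a `1`-unit class), so
the logic is ONE pass.
-/
import Fermat.Agent.S44.Top.Final
import Fermat.Agent.S44.X0.FrameAll
import Fermat.Agent.S44.X0.NodePairInst
import Fermat.Agent.S44.Fin.RedHecke2
import Fermat.Agent.S44.Loc.PeuOrTame

set_option autoImplicit false
set_option linter.unusedSectionVars false
set_option linter.unusedVariables false
set_option linter.style.haveILetI false
set_option synthInstance.maxHeartbeats 400000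

noncomputable section

namespace Fermat.Agent.S44.Top.Core

open WeierstrassCurve WeierstrassCurve.Affine WeierstrassCurve.Affine.Point
open ModularCurve AlgebraicCurve IsLocalRing FreyPackage
open Fermat.Agent.S33.X0.Frame Fermat.Agent.S33.KP.OneUnit
open Fermat.Agent.S44.Fin.Red Fermat.Agent.S44.Eis.HeckeNode Fermat.Agent.S44.Top.Assemble
open Fermat.Agent.S44.Top.Final Fermat.Agent.S44.Core.FrameHyp Fermat.Agent.S44.X0.FrameAll
open Fermat.Agent.S44.Loc.Frame Fermat.Agent.S44.Core.Break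

local notation "Qbar" => AlgebraicClosure ℚ
local notation "GQ" => (AlgebraicClosure ℚ ≃ₐ[ℚ] AlgebraicClosure ℚ)

attribute [local instance 2000] Fermat.Agent.S34.EulerX0.algResFk

/-- **Block (iv), tame case**: a `p`-torsion `T_l`-eigenclass of `J₀(M p)` (eigenvalues of the Frey
curve at the good primes) which is fixed by the wild inertia group `I₁` lies in the finite part. -/
def TameExport : Prop :=
  ∀ (P : FreyPackage) [Fact P.p.Prime] [NeZero P.p] {M : ℕ} [NeZero M] [NeZero (M * P.p)]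
    (hpM : ¬ P.p ∣ M) {A : ValuationSubring Qbar} (hA : A.LiesOverPrime P.p),
    (P.p : ℤ) ∣ P.a * P.b * P.c →
    GaloisRepIsIrreducible (K := AlgebraicClosure ℚ) ℚ P.freyCurve P.p →
    ∀ (W : WeierstrassCurve ℤ), W.IsIntegralModelOf P.freyCurve → W.Δ ≠ 0 →
    ∀ {F : ChartFrame hA hpM} (Y : NodeHyp F), Fermat.Agent.S44.Eis.HeckeNode.RedStd F →
      Fermat.Agent.S44.Eis.HeckeNode.RedStd2 F → HasLocalCount F Y →
      Fermat.Agent.S44.X0.NodePairInst.SpStd Y →
    ∀ x : JZero (M * P.p), P.p • x = 0 →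
      (∀ (ℓ : ℕ) (hℓ : ℓ.Prime), W.IsGoodPrimeFor ℓ → ¬ ℓ ∣ M * P.p → ℓ ≠ P.p →
        heckeOperatorBar (M * P.p) ⟨ℓ, hℓ⟩ x = W.apOfModel ℓ • x) →
      (∀ τ ∈ I1 P.p A, τ • x = x) → x ∈ finRed F

/-- **Block (iv), PEU case**: the same for a class moved by some `σ ∈ I₁`, given the wild frame `B`
of the class with `B.s + 1 ≤ p`; the displacement `σ • x - x` is a `1`-unit class fixed by `I₁`, and
`I₁` moves `x` inside a line `Lx` (of order `p`) which it fixes pointwise. -/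
def PeuExport : Prop :=
  ∀ (P : FreyPackage) [Fact P.p.Prime] [NeZero P.p] {M : ℕ} [NeZero M] [NeZero (M * P.p)]
    (hpM : ¬ P.p ∣ M) {A : ValuationSubring Qbar} (hA : A.LiesOverPrime P.p),
    (P.p : ℤ) ∣ P.a * P.b * P.c →
    GaloisRepIsIrreducible (K := AlgebraicClosure ℚ) ℚ P.freyCurve P.p →
    ∀ (W : WeierstrassCurve ℤ), W.IsIntegralModelOf P.freyCurve → W.Δ ≠ 0 →
    ∀ {F : ChartFrame hA hpM} (Y : NodeHyp F), Fermat.Agent.S44.Eis.HeckeNode.RedStd F →
      Fermat.Agent.S44.Eis.HeckeNode.RedStd2 F → HasLocalCount F Y →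
      Fermat.Agent.S44.X0.NodePairInst.SpStd Y →
    ∀ x : JZero (M * P.p), P.p • x = 0 →
      (∀ (ℓ : ℕ) (hℓ : ℓ.Prime), W.IsGoodPrimeFor ℓ → ¬ ℓ ∣ M * P.p → ℓ ≠ P.p →
        heckeOperatorBar (M * P.p) ⟨ℓ, hℓ⟩ x = W.apOfModel ℓ • x) →
      ∀ σ ∈ I1 P.p A, σ • x ≠ x → σ • x - x ∈ oneUnit hA hpM P.p →
      (∀ τ ∈ I1 P.p A, τ • (σ • x - x) = σ • x - x) →
      ∀ Lx : AddSubgroup (JZero (M * P.p)), (∀ τ ∈ I1 P.p A, ∀ z ∈ Lx, τ • z = z) →
      (∀ τ ∈ I1 P.p A, τ • x - x ∈ Lx) → Nat.card Lx = P.p →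
      ∀ B : WildDatum A (σ : Qbar ≃+* Qbar) P.p (I1 P.p A) (stab P.p A x),
        B.s + 1 ≤ P.p → x ∈ finRed F

/-- **`CoreExport` from the two cases.** -/
theorem coreExport_of_exports (htame : TameExport) (hpeu : PeuExport) : CoreExport := by
  intro P _ _ M _ _ hpM A hA hpabc hirr W hW hΔ φ hinj hequiv heig
  obtain ⟨F, Y, hstd, hstd2, hLC, hsp⟩ :=
    Fermat.Agent.S44.X0.NodePairInst.exists_frame_spStd hA hpM
  refine ⟨F, hstd, hstd2,
    fun r hrp hrM x a hx y c hy =>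
      Fermat.Agent.S44.Fin.RedHecke2.reductionModL_hecke_eq_rho2 hstd2 r hrp hrM x a hx y c hy,
    fun v => ?_⟩
  have hpv : P.p • φ v = 0 := by
    rw [← map_nsmul]
    have h0 : P.p • v = 0 := by
      apply Subtype.ext
      have h1 := v.2
      rw [Submodule.mem_torsionBy_iff] at h1
      rw [AddSubmonoidClass.coe_nsmul, ZeroMemClass.coe_zero, ← natCast_zsmul]
      exact h1
    rw [h0, _root_.map_zero]
  have heigv : ∀ (ℓ : ℕ) (hℓ : ℓ.Prime), W.IsGoodPrimeFor ℓ → ¬ ℓ ∣ M * P.p → ℓ ≠ P.p →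
      heckeOperatorBar (M * P.p) ⟨ℓ, hℓ⟩ (φ v) = W.apOfModel ℓ • φ v :=
    fun ℓ hℓ hg hN hp => heig ℓ hℓ hg hN hp v
  obtain ⟨LE, hcardLE, -, hLfix, hmove, hsplit⟩ :=
    Fermat.Agent.S44.Loc.PeuOrTame.exists_line_peu_or_tame P hpabc hA φ hinj hequiv
  have hcard : Nat.card (LE.map φ) = P.p := by
    exact (Nat.card_congr (LE.equivMapOfInjective φ hinj).toEquiv).symm.trans hcardLE
  rcases hsplit v with hfix | ⟨σ, hσ, hσx, -, hz1, B, hs⟩
  · exact htame P hpM hA hpabc hirr W hW hΔ Y hstd hstd2 hLC hsp (φ v) hpv heigv hfix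
  · have hz : σ • φ v - φ v ∈ oneUnit hA hpM P.p :=
      smul_sub_mem_oneUnit hA hpM (I1_le hσ) P.pp.ne_zero (φ v) hpv
    exact hpeu P hpM hA hpabc hirr W hW hΔ Y hstd hstd2 hLC hsp (φ v) hpv heigv σ hσ hσx hz hz1
      (LE.map φ) hLfix (fun τ hτ => hmove τ (I1_le hτ) v) hcard B hs

/-- **S44 from the two cases of block (iv).** -/
theorem result_of_exports (htame : TameExport) (hpeu : PeuExport) (P : FreyPackage) {N : ℕ}
    (hcond : P.IsConductorLevel N) (hpN : P.p ∣ N)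
    (hirr : GaloisRepIsIrreducible (K := AlgebraicClosure ℚ) ℚ P.freyCurve P.p)
    (hmod : P.ModularRepOfLevel N) : ∃ M : ℕ, M ∣ N ∧ ¬ P.p ∣ M ∧ P.ModularRepOfLevel M :=
  result_of_coreExport (coreExport_of_exports htame hpeu) P hcond hpN hirr hmod

end Fermat.Agent.S44.Top.Core

end
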