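/-
PROJECT P (S44), TOP (helper8): BLOCK (iv) = THE COMPOSITION `CORE → EIS → Hnn`, HYPOTHESIS-FIRST.

For a frame `(F, Y)` with its standard data, the three bricks of block (iv) are named as `Prop`s in
the vocabulary of the compiled files (`Core/NodeOrd`, `Eis/EisInst`, `Fin/Red`):

* `UnitSide F w`   : the slope data of the modular unit for the thickness exponents `w`
                     (`Eis/UnitSlope` + the `u`-clause of `Fin/Hnn`);
* `TameConst F w`, `PeuConst F w` : the two exports of the CORE (`Core/Export`):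
                     `w_e a_e(x)` does not depend on the node `e`;
* `HasOffRep F x`  : a representative `(D, u)` of `x` with `p ∣ ord_Q (red₁ u)` at the places `Q`
                     of the first component which are neither nodes nor cusps (`Fin/Hnn`, first half);
* `FinOfNodeOrd F` : `HasNodeOrd F x 0 → x ∈ finRed F` (`Fin/Hnn`, second half).

`tameExport_of` / `peuExport_of` : the two exports of `Top/Core` from these.
-/
import Fermat.Agent.S44.Top.Core
import Fermat.Agent.S44.Top.NonEis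
import Fermat.Agent.S44.Eis.EisInst

set_option autoImplicit false
set_option linter.unusedSectionVars false
set_option linter.unusedVariables false
set_option linter.style.haveILetI false
set_option synthInstance.maxHeartbeats 400000

noncomputable section

namespace Fermat.Agent.S44.Top.Block4

open WeierstrassCurve WeierstrassCurve.Affine WeierstrassCurve.Affine.Point
open ModularCurve AlgebraicCurve IsLocalRing FreyPackage
open Fermat.Agent.S33.X0.Frame Fermat.Agent.S33.KP.OneUnit Fermat.Agent.S34.CoreZX0Datum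
open Fermat.Agent.S44.Fin.Red Fermat.Agent.S44.Eis.HeckeNode Fermat.Agent.S44.Eis.HeckeK
open Fermat.Agent.S44.Core.NodeOrd Fermat.Agent.S44.Core.FrameHyp Fermat.Agent.S44.X0.FrameAll
open Fermat.Agent.S44.Loc.Frame Fermat.Agent.S44.Core.Break
open Fermat.Agent.S18.B.FkBasics (jk)

local notation "Qbar" => AlgebraicClosure ℚ
local notation "GQ" => (AlgebraicClosure ℚ ≃ₐ[ℚ] AlgebraicClosure ℚ)

attribute [local instance] Fermat.Agent.S18.A.Instances.hasPrincipalDivisors_bar

attribute [local instance 2000] Fermat.Agent.S34.EulerX0.algResFk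

local instance instNeZeroMul (M q : ℕ) [NeZero M] [NeZero q] : NeZero (M * q) :=
  ⟨Nat.mul_ne_zero (NeZero.ne M) (NeZero.ne q)⟩

local instance instPDFk (A : ValuationSubring Qbar) (N : ℕ) [NeZero N] :
    HasPrincipalDivisors (ResidueField ↥A) ↥(modularFunctionFieldFullC (ResidueField ↥A) N) :=
  Fermat.Agent.S37.ReductionInputs.hasPrincipalDivisors_Fk A N

section Generic

variable {p : ℕ} [hp : Fact p.Prime] {M : ℕ} [NeZero M] {A : ValuationSubring Qbar} [NeZero p]
variable {hA : A.LiesOverPrime p} {hpM : ¬ p ∣ M}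

/-- **the unit side** for the thickness exponents `w`: a unit `U1` of the first Gauss ring (the
modular unit `Δ(z)/Δ(M p z)`) with `w_e a_e(U1) = 12`, `w_e a_e(T_r U1) = 12 (r + 1)`, and orders
divisible by `p` at the places which are neither nodes nor cusps. -/
def UnitSide (F : ChartFrame hA hpM) (w : Node F → ℕ) : Prop :=
  ∃ U1 : (F.X.N.R1.O)ˣ,
    (∀ e, (w e : ℤ) * (F.X.N.e1 e).ord (F.X.N.R1.red U1) = 12) ∧
    (∀ e, 0 ≤ (F.X.N.e1 e).ord (jk (ResidueField ↥A) M)) ∧
    (∀ Q, (∀ e, Q ≠ F.X.N.e1 e) → 0 ≤ Q.ord (jk (ResidueField ↥A) M) →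
      (p : ℤ) ∣ Q.ord (F.X.N.R1.red U1)) ∧
    ∀ (r : Nat.Primes), (r : ℕ) ≠ p → ¬ (r : ℕ) ∣ M →
      haveI : NeZero (r : ℕ) := ⟨r.2.ne_zero⟩
      ∀ Δ : Divisor (ResidueField ↥A) ↥(modularFunctionFieldFullC (ResidueField ↥A) M),
      (∀ Q, Δ Q = Q.ord (F.X.N.R1.red U1)) →
      ∀ e, (w e : ℤ) * heckeDivK M hpM A hA (r : ℕ) Δ (F.X.N.e1 e) = 12 * (((r : ℕ) : ℤ) + 1)

/-- a representative `(D, u)` of `x`, `p D = div u`, `u` a unit of the first Gauss ring whose
reduction has order divisible by `p` at every place which is neither a node nor a cusp -/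
def HasOffRep (F : ChartFrame hA hpM) (x : JZero (M * p)) : Prop :=
  ∃ (D : Divisor.degZero (K := Qbar) (F := ↥(modularFunctionFieldBar (M * p))))
    (u : (F.X.N.R1.O)ˣ), Pic0.mk D = x ∧
    (∀ P : Place Qbar ↥(modularFunctionFieldBar (M * p)),
      (p : ℤ) * (D : Divisor Qbar ↥(modularFunctionFieldBar (M * p))) P =
        P.ord (((u : F.X.N.R1.O)) : ↥(modularFunctionFieldBar (M * p)))) ∧
    ∀ Q, (∀ e, Q ≠ F.X.N.e1 e) → 0 ≤ Q.ord (jk (ResidueField ↥A) M) →
      (p : ℤ) ∣ Q.ord (F.X.N.R1.red u)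

/-- the tame export of the CORE for the thickness exponents `w` -/
def TameConst (F : ChartFrame hA hpM) (w : Node F → ℕ) : Prop :=
  ∀ x : JZero (M * p), p • x = 0 → (∀ τ ∈ I1 p A, τ • x = x) →
    ∃ a : Node F → ZMod p, HasNodeOrd F x a ∧ ∃ c : ZMod p, ∀ e, ((w e : ℕ) : ZMod p) * a e = c

/-- the PEU export of the CORE for the thickness exponents `w` -/
def PeuConst (F : ChartFrame hA hpM) (w : Node F → ℕ) : Prop :=
  ∀ x : JZero (M * p), p • x = 0 → ∀ σ ∈ I1 p A, σ • x ≠ x →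
    σ • x - x ∈ oneUnit hA hpM p → (∀ τ ∈ I1 p A, τ • (σ • x - x) = σ • x - x) →
    ∀ Lx : AddSubgroup (JZero (M * p)), (∀ τ ∈ I1 p A, ∀ z ∈ Lx, τ • z = z) →
    (∀ τ ∈ I1 p A, τ • x - x ∈ Lx) → Nat.card Lx = p →
    ∀ B : WildDatum A (σ : Qbar ≃+* Qbar) p (I1 p A) (stab p A x), B.s + 1 ≤ p →
    ∃ a : Node F → ZMod p, HasNodeOrd F x a ∧ ∃ c : ZMod p, ∀ e, ((w e : ℕ) : ZMod p) * a e = c

/-- **EIS on a class with constant `w_e a_e`**: the node orders vanish. -/
theorem hasNodeOrd_zero_of_const (F : ChartFrame hA hpM) (hstd : RedStd F) (w : Node F → ℕ)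
    (hU : UnitSide F w) (h12 : ¬ p ∣ 12)
    (r : Nat.Primes) (hrp : (r : ℕ) ≠ p) (hrM : ¬ (r : ℕ) ∣ M)
    (ar : ℤ) (hne : (ar : ZMod p) ≠ ((r : ℕ) : ZMod p) + 1)
    (x : JZero (M * p)) (hx : heckeOperatorBar (M * p) r x = ar • x)
    (hrep : HasOffRep F x) (a : Node F → ZMod p) (ha : HasNodeOrd F x a)
    (c : ZMod p) (hc : ∀ e, ((w e : ℕ) : ZMod p) * a e = c) : HasNodeOrd F x 0 := by
  obtain ⟨U1, hwU, hnc, hUoff, hwTU⟩ := hU
  obtain ⟨D, u, hDx, hD, hoff⟩ := hrep
  have ha' : HasNodeOrd F x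
      (fun e => (((F.X.N.e1 e).ord (F.X.N.R1.red (u : F.X.N.R1.O)) : ℤ) : ZMod p)) :=
    ⟨D, u, hDx, hD, fun _ => rfl⟩
  have haa := ha.unique ha'
  refine Fermat.Agent.S44.Eis.EisInst.hasNodeOrd_zero F hstd w h12 U1 hwU hnc hUoff r hrp hrM
    (hwTU r hrp hrM) ar hne x hx D u hDx hD hoff c (fun e => ?_)
  rw [← hc e, haa]

end Generic

/-! ### The two exports of `Top/Core` -/

/-- **the CORE + unit side, for every frame**: thickness exponents `w` with the slope data of the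
modular unit and the two exports of the CORE. -/
def CoreData : Prop :=
  ∀ {p : ℕ} [Fact p.Prime] {M : ℕ} [NeZero M] {A : ValuationSubring Qbar} [NeZero p]
    (hA : A.LiesOverPrime p) (hpM : ¬ p ∣ M) {F : ChartFrame hA hpM} (Y : NodeHyp F),
    Fermat.Agent.S44.Eis.HeckeNode.RedStd F → Fermat.Agent.S44.Eis.HeckeNode.RedStd2 F →
    HasLocalCount F Y → Fermat.Agent.S44.X0.NodePairInst.SpStd Y →
    ∃ w : Node F → ℕ, UnitSide F w ∧ TameConst F w ∧ PeuConst F w

/-- **`Fin/Hnn`, for every frame**: representatives off the bad smooth places, and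
`finPart ≤ finRed`. -/
def HnnData : Prop :=
  ∀ {p : ℕ} [Fact p.Prime] {M : ℕ} [NeZero M] {A : ValuationSubring Qbar} [NeZero p]
    (hA : A.LiesOverPrime p) (hpM : ¬ p ∣ M) {F : ChartFrame hA hpM} (Y : NodeHyp F),
    Fermat.Agent.S44.Eis.HeckeNode.RedStd F → Fermat.Agent.S44.Eis.HeckeNode.RedStd2 F →
    HasLocalCount F Y →
    (∀ x : JZero (M * p), p • x = 0 → HasOffRep F x) ∧
    ∀ x : JZero (M * p), HasNodeOrd F x 0 → x ∈ finRed F

/-- **all of block (iv) in one `Prop`** (the form the final file proves: ONE node frame `NF` is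
obtained for the frame `(F, Y)`, `w := NF.w`, and the five bricks are called with it). -/
def Block4Data : Prop :=
  ∀ {p : ℕ} [Fact p.Prime] {M : ℕ} [NeZero M] {A : ValuationSubring Qbar} [NeZero p]
    (hA : A.LiesOverPrime p) (hpM : ¬ p ∣ M) {F : ChartFrame hA hpM} (Y : NodeHyp F),
    Fermat.Agent.S44.Eis.HeckeNode.RedStd F → Fermat.Agent.S44.Eis.HeckeNode.RedStd2 F →
    HasLocalCount F Y → Fermat.Agent.S44.X0.NodePairInst.SpStd Y →
    ∃ w : Node F → ℕ, UnitSide F w ∧ TameConst F w ∧ PeuConst F w ∧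
      (∀ x : JZero (M * p), p • x = 0 → HasOffRep F x) ∧
      ∀ x : JZero (M * p), HasNodeOrd F x 0 → x ∈ finRed F

theorem block4Data_of (hcore : CoreData) (hnn : HnnData) : Block4Data := by
  intro p _ M _ A _ hA hpM F Y hstd hstd2 hLC hsp
  obtain ⟨w, hU, ht, hp'⟩ := hcore hA hpM Y hstd hstd2 hLC hsp
  obtain ⟨hrep, hfin⟩ := hnn hA hpM Y hstd hstd2 hLC
  exact ⟨w, hU, ht, hp', hrep, hfin⟩

theorem coreData_of (h : Block4Data) : CoreData := by
  intro p _ M _ A _ hA hpM F Y hstd hstd2 hLC hsp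
  obtain ⟨w, hU, ht, hp', -, -⟩ := h hA hpM Y hstd hstd2 hLC hsp
  exact ⟨w, hU, ht, hp'⟩

/-- the common end of the two cases -/
theorem mem_finRed_of_const (P : FreyPackage) [Fact P.p.Prime] [NeZero P.p]
    {M : ℕ} [NeZero M] (hpM : ¬ P.p ∣ M) {A : ValuationSubring Qbar}
    (hA : A.LiesOverPrime P.p)
    (hirr : GaloisRepIsIrreducible (K := AlgebraicClosure ℚ) ℚ P.freyCurve P.p)
    (W : WeierstrassCurve ℤ) (hW : W.IsIntegralModelOf P.freyCurve)
    {F : ChartFrame hA hpM} (hstd : Fermat.Agent.S44.Eis.HeckeNode.RedStd F)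
    (hrep : ∀ x : JZero (M * P.p), P.p • x = 0 → HasOffRep F x)
    (hfin : ∀ x : JZero (M * P.p), HasNodeOrd F x 0 → x ∈ finRed F)
    (w : Node F → ℕ) (hU : UnitSide F w)
    (x : JZero (M * P.p)) (hpx : P.p • x = 0)
    (heig : ∀ (ℓ : ℕ) (hℓ : ℓ.Prime), W.IsGoodPrimeFor ℓ → ¬ ℓ ∣ M * P.p → ℓ ≠ P.p →
      heckeOperatorBar (M * P.p) ⟨ℓ, hℓ⟩ x = W.apOfModel ℓ • x)
    (a : Node F → ZMod P.p) (ha : HasNodeOrd F x a)
    (c : ZMod P.p) (hc : ∀ e, ((w e : ℕ) : ZMod P.p) * a e = c) : x ∈ finRed F := by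
  obtain ⟨r, hrp, hrM, hrMp, hgood, hne⟩ :=
    Fermat.Agent.S44.Top.NonEis.exists_prime_ap_ne_frey P hirr hW M (Nat.pos_of_ne_zero (NeZero.ne M))
  have h12 : ¬ P.p ∣ 12 := by
    intro h
    have h5 := P.hp5
    have hpp := P.pp
    have h1 : P.p ∣ 2 * 2 * 3 := h
    rcases (Nat.Prime.dvd_mul hpp).mp h1 with h2 | h3
    · rcases (Nat.Prime.dvd_mul hpp).mp h2 with h4 | h4
      · have := Nat.le_of_dvd (by norm_num) h4
        omega
      · have := Nat.le_of_dvd (by norm_num) h4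
        omega
    · have := Nat.le_of_dvd (by norm_num) h3
      omega
  refine hfin x (hasNodeOrd_zero_of_const F hstd w hU h12 r hrp hrM (W.apOfModel (r : ℕ)) hne x
    (heig (r : ℕ) r.2 hgood hrMp hrp) (hrep x hpx) a ha c hc)

/-- **the tame export** from block (iv) -/
theorem tameExport_of_block4 (h : Block4Data) : Fermat.Agent.S44.Top.Core.TameExport := by
  intro P _ _ M _ _ hpM A hA hpabc hirr W hW hΔ F Y hstd hstd2 hLC hsp x hpx heig hfix
  obtain ⟨w, hU, htame, -, hrep, hfin⟩ := h hA hpM Y hstd hstd2 hLC hsp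
  obtain ⟨a, ha, c, hc⟩ := htame x hpx hfix
  exact mem_finRed_of_const P hpM hA hirr W hW hstd hrep hfin w hU x hpx heig a ha c hc

/-- **the PEU export** from block (iv) -/
theorem peuExport_of_block4 (h : Block4Data) : Fermat.Agent.S44.Top.Core.PeuExport := by
  intro P _ _ M _ _ hpM A hA hpabc hirr W hW hΔ F Y hstd hstd2 hLC hsp x hpx heig σ hσ hσx hz hz1
    Lx hLfix hLx hcard B hs
  obtain ⟨w, hU, -, hpeu, hrep, hfin⟩ := h hA hpM Y hstd hstd2 hLC hsp
  obtain ⟨a, ha, c, hc⟩ := hpeu x hpx σ hσ hσx hz hz1 Lx hLfix hLx hcard B hs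
  exact mem_finRed_of_const P hpM hA hirr W hW hstd hrep hfin w hU x hpx heig a ha c hc

/-- **the tame export** from the CORE data and `Fin/Hnn` -/
theorem tameExport_of (hcore : CoreData) (hnn : HnnData) : Fermat.Agent.S44.Top.Core.TameExport :=
  tameExport_of_block4 (block4Data_of hcore hnn)

/-- **the PEU export** from the CORE data and `Fin/Hnn` -/
theorem peuExport_of (hcore : CoreData) (hnn : HnnData) : Fermat.Agent.S44.Top.Core.PeuExport :=
  peuExport_of_block4 (block4Data_of hcore hnn)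

/-- **S44 from block (iv).** -/
theorem result_of_block4 (h : Block4Data) (P : FreyPackage) {N : ℕ}
    (hcond : P.IsConductorLevel N) (hpN : P.p ∣ N)
    (hirr : GaloisRepIsIrreducible (K := AlgebraicClosure ℚ) ℚ P.freyCurve P.p)
    (hmod : P.ModularRepOfLevel N) : ∃ M : ℕ, M ∣ N ∧ ¬ P.p ∣ M ∧ P.ModularRepOfLevel M :=
  Fermat.Agent.S44.Top.Core.result_of_exports (tameExport_of_block4 h) (peuExport_of_block4 h)
    P hcond hpN hirr hmod

/-- **S44 from the CORE data and `Fin/Hnn`.** -/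
theorem result_of_data (hcore : CoreData) (hnn : HnnData) (P : FreyPackage) {N : ℕ}
    (hcond : P.IsConductorLevel N) (hpN : P.p ∣ N)
    (hirr : GaloisRepIsIrreducible (K := AlgebraicClosure ℚ) ℚ P.freyCurve P.p)
    (hmod : P.ModularRepOfLevel N) : ∃ M : ℕ, M ∣ N ∧ ¬ P.p ∣ M ∧ P.ModularRepOfLevel M :=
  result_of_block4 (block4Data_of hcore hnn) P hcond hpN hirr hmod

end Fermat.Agent.S44.Top.Block4

end
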