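/-
PROJECT P (S44), TOP (helper8): THE LAST FILE OF BLOCK (iv), HYPOTHESIS-FIRST.

`Block4Data` (hence S44, `Top/Block4.result_of_block4`) from the bricks of block (iv), each named as
a `Prop` over an arbitrary frame `(F, Y, hstd, hstd2, hLC)`:

* `HasNodeFrame`  : `Nonempty (NodeFrame F Y)` for a frame with standard specialisation maps
  (`X0/NodePairInst.SpStd Y`; helper15's `X0/NodeFrameSeam.nonempty_nodeFrame`: `nodeFrame` below);
* the unit side is helper22's `Eis/UnitFinal.unitSide` (a theorem, compiled in);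
* `HasTameConst`  : `TameConst F NF.w` for every node frame `NF`     (`X0/ExportInst`, tame half);
* `HasPeuConst`   : `PeuConst F NF.w` for every node frame `NF`      (`X0/ExportInst`, PEU half);
* `Block4.HnnData`: helper23's `Fin/Hnn.hnnData` (a theorem, compiled in: `hnnData` below).
-/
import Fermat.Agent.S44.Top.Block4
import Fermat.Agent.S44.Eis.UnitFinal
import Fermat.Agent.S44.X0.NodeFrameDef
import Fermat.Agent.S44.Fin.Hnn
import Fermat.Agent.S44.X0.NodeFrameSeam

set_option autoImplicit false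
set_option linter.unusedSectionVars false
set_option linter.unusedVariables false
set_option linter.style.haveILetI false
set_option synthInstance.maxHeartbeats 400000

noncomputable section

namespace Fermat.Agent.S44.Top.Last

open WeierstrassCurve WeierstrassCurve.Affine WeierstrassCurve.Affine.Point
open ModularCurve AlgebraicCurve IsLocalRing FreyPackage
open Fermat.Agent.S33.X0.Frame Fermat.Agent.S34.CoreZX0Datum
open Fermat.Agent.S44.Core.NodeOrd Fermat.Agent.S44.Core.FrameHyp Fermat.Agent.S44.X0.FrameAll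
open Fermat.Agent.S44.X0.NodeFrameDef Fermat.Agent.S44.Top.Block4

local notation "Qbar" => AlgebraicClosure ℚ

attribute [local instance] Fermat.Agent.S18.A.Instances.hasPrincipalDivisors_bar

attribute [local instance 2000] Fermat.Agent.S34.EulerX0.algResFk

local instance instNeZeroMul (M q : ℕ) [NeZero M] [NeZero q] : NeZero (M * q) :=
  ⟨Nat.mul_ne_zero (NeZero.ne M) (NeZero.ne q)⟩

/-- **(X1)**: every frame with standard specialisation maps carries a node frame (exact node
coordinates `ξ ζ = p ^ w`). -/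
def HasNodeFrame : Prop :=
  ∀ {p : ℕ} [Fact p.Prime] {M : ℕ} [NeZero M] {A : ValuationSubring Qbar} [NeZero p]
    (hA : A.LiesOverPrime p) (hpM : ¬ p ∣ M) {F : ChartFrame hA hpM} (Y : NodeHyp F),
    Fermat.Agent.S44.Eis.HeckeNode.RedStd F → Fermat.Agent.S44.Eis.HeckeNode.RedStd2 F →
    HasLocalCount F Y → Fermat.Agent.S44.X0.NodePairInst.SpStd Y → Nonempty (NodeFrame F Y)

/-- the tame export of the CORE, for every node frame -/
def HasTameConst : Prop :=
  ∀ {p : ℕ} [Fact p.Prime] {M : ℕ} [NeZero M] {A : ValuationSubring Qbar} [NeZero p]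
    (hA : A.LiesOverPrime p) (hpM : ¬ p ∣ M) {F : ChartFrame hA hpM} (Y : NodeHyp F),
    Fermat.Agent.S44.Eis.HeckeNode.RedStd F → Fermat.Agent.S44.Eis.HeckeNode.RedStd2 F →
    HasLocalCount F Y → ∀ NF : NodeFrame F Y, TameConst F NF.w

/-- the PEU export of the CORE, for every node frame -/
def HasPeuConst : Prop :=
  ∀ {p : ℕ} [Fact p.Prime] {M : ℕ} [NeZero M] {A : ValuationSubring Qbar} [NeZero p]
    (hA : A.LiesOverPrime p) (hpM : ¬ p ∣ M) {F : ChartFrame hA hpM} (Y : NodeHyp F),
    Fermat.Agent.S44.Eis.HeckeNode.RedStd F → Fermat.Agent.S44.Eis.HeckeNode.RedStd2 F →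
    HasLocalCount F Y → ∀ NF : NodeFrame F Y, PeuConst F NF.w

/-- **block (iv) from its four open bricks** (the unit side is helper22's `Eis/UnitFinal.unitSide`,
a theorem) -/
theorem block4Data_of_bricks (hNF : HasNodeFrame) (htame : HasTameConst)
    (hpeu : HasPeuConst) (hnn : HnnData) : Block4Data := by
  intro p _ M _ A _ hA hpM F Y hstd hstd2 hLC hsp
  obtain ⟨NF⟩ := hNF hA hpM Y hstd hstd2 hLC hsp
  obtain ⟨hrep, hfin⟩ := hnn hA hpM Y hstd hstd2 hLC
  exact ⟨NF.w, Fermat.Agent.S44.Eis.UnitFinal.unitSide Y NF hstd,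
    htame hA hpM Y hstd hstd2 hLC NF, hpeu hA hpM Y hstd hstd2 hLC NF, hrep, hfin⟩

/-- **S44 from the four open bricks of block (iv).** -/
theorem result_of_four (hNF : HasNodeFrame) (htame : HasTameConst)
    (hpeu : HasPeuConst) (hnn : HnnData) (P : FreyPackage) {N : ℕ}
    (hcond : P.IsConductorLevel N) (hpN : P.p ∣ N)
    (hirr : GaloisRepIsIrreducible (K := AlgebraicClosure ℚ) ℚ P.freyCurve P.p)
    (hmod : P.ModularRepOfLevel N) : ∃ M : ℕ, M ∣ N ∧ ¬ P.p ∣ M ∧ P.ModularRepOfLevel M :=
  result_of_block4 (block4Data_of_bricks hNF htame hpeu hnn) P hcond hpN hirr hmod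

/-- **brick [e]**: helper23's `Fin/Hnn.hnnData` in the literal of `Top/Block4.HnnData`. -/
theorem hnnData : HnnData := by
  intro p _ M _ A _ hA hpM F Y hstd hstd2 hLC
  exact Fermat.Agent.S44.Fin.Hnn.hnnData Y hLC

/-- **brick [a]**: helper15's `X0/NodeFrameSeam.nonempty_nodeFrame` (helper25's exact node pair,
helper15's bound `w ≤ 12`, helper6's `ord_unit_tube`) in the literal of `HasNodeFrame`. -/
theorem nodeFrame : HasNodeFrame := by
  intro p _ M _ A _ hA hpM F Y hstd hstd2 hLC hsp
  exact Fermat.Agent.S44.X0.NodeFrameSeam.nonempty_nodeFrame Y hsp hstd hstd2 hLC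

/-- **S44 from the three open bricks of block (iv)** (`[b]` and `[e]` compiled in). -/
theorem result_of_three (hNF : HasNodeFrame) (htame : HasTameConst)
    (hpeu : HasPeuConst) (P : FreyPackage) {N : ℕ}
    (hcond : P.IsConductorLevel N) (hpN : P.p ∣ N)
    (hirr : GaloisRepIsIrreducible (K := AlgebraicClosure ℚ) ℚ P.freyCurve P.p)
    (hmod : P.ModularRepOfLevel N) : ∃ M : ℕ, M ∣ N ∧ ¬ P.p ∣ M ∧ P.ModularRepOfLevel M :=
  result_of_four hNF htame hpeu hnnData P hcond hpN hirr hmod

end Fermat.Agent.S44.Top.Last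

end
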