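/-
PROJECT P (S44), TOP (helper8): THE TWO EXPORTS OF THE CORE IN THE LITERALS OF `Top/Last`.

* `hasTameConst : Last.HasTameConst` = helper19's `X0/ExportInst.tameConst` (unconditional);
* `peuConst_of_coreRep` : helper19's `X0/ExportInst.peuConst_of_rep` with the moment identity taken
  from helper1's `X0/MomentLC.moment_eq_wild_disc_lc` (the local count replaces the clause on the
  fibres of `sp2`), on a CORE representative `IsCoreRep F Y W D h` of helper18's `X0/CoreRep`;
* `hasPeuConst : Last.HasPeuConst` = the former on helper18's `X0/CoreRepInst.exists_coreRep_frame`;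
* `result_of_nodeFrame : Last.HasNodeFrame → S44`.
-/
import Fermat.Agent.S44.Top.Last
import Fermat.Agent.S44.X0.ExportInst
import Fermat.Agent.S44.X0.MomentLC
import Fermat.Agent.S44.X0.CoreRepInst

set_option autoImplicit false
set_option linter.unusedSectionVars false
set_option linter.unusedVariables false
set_option linter.style.haveILetI false
set_option synthInstance.maxHeartbeats 400000

noncomputable section

namespace Fermat.Agent.S44.Top.Exports

open WeierstrassCurve WeierstrassCurve.Affine WeierstrassCurve.Affine.Point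
open ModularCurve AlgebraicCurve IsLocalRing FreyPackage
open Fermat.Agent.S34.NodalDefs Fermat.Agent.S34.CoreZX0Datum
open Fermat.Agent.S33.X0.Frame
open Fermat.Agent.S44.Core.FrameHyp Fermat.Agent.S44.Core.TubeCount
open Fermat.Agent.S44.Core.Break Fermat.Agent.S44.Core.Factor Fermat.Agent.S44.Core.NodeFrame
open Fermat.Agent.S44.Core.NodeOrd Fermat.Agent.S44.Core.Export Fermat.Agent.S44.Core.ExportTube
open Fermat.Agent.S44.X0.FrameAll Fermat.Agent.S44.X0.NodeFrameDef Fermat.Agent.S44.X0.NodeInst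
open Fermat.Agent.S44.Loc.Frame Fermat.Agent.S44.Loc.Tame Fermat.Agent.S44.X0.ValGroupWild
open Fermat.Agent.S44.X0.CoreRep Fermat.Agent.S44.X0.ExportInst
open Fermat.Agent.S44.Top.Block4 Fermat.Agent.S44.Top.Last

local notation "Qbar" => AlgebraicClosure ℚ
local notation "GQ" => (AlgebraicClosure ℚ ≃ₐ[ℚ] AlgebraicClosure ℚ)

attribute [local instance 2000] Fermat.Agent.S34.EulerX0.algResFk

/-- local instance: principal divisors on `E` -/
local instance instPDBar (N : ℕ) [NeZero N] :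
    HasPrincipalDivisors Qbar ↥(modularFunctionFieldBar N) :=
  Fermat.Agent.S18.A.Instances.hasPrincipalDivisors_bar N

local instance instNeZeroMul (M q : ℕ) [NeZero M] [NeZero q] : NeZero (M * q) :=
  ⟨Nat.mul_ne_zero (NeZero.ne M) (NeZero.ne q)⟩

variable {p : ℕ} [hp : Fact p.Prime] {M : ℕ} [NeZero M] {A : ValuationSubring Qbar} [NeZero p]
variable {hA : A.LiesOverPrime p} {hpM : ¬ p ∣ M}

/-! ### the PEU export on a CORE representative -/

set_option maxHeartbeats 2000000 in
include hA in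
/-- **THE PEU EXPORT ON A CORE REPRESENTATIVE** (helper19's `X0/ExportInst.peuConst_of_rep`, with the
moment identity of helper1's `X0/MomentLC`). -/
theorem peuConst_of_coreRep (F : ChartFrame hA hpM) (Y : NodeHyp F) (NF : NodeFrame F Y)
    (hLC : HasLocalCount F Y) (x : JZero (M * p)) (hpx : p • x = 0)
    {σ : GQ} (hσ : σ ∈ I1 p A) (hσx : σ • x ≠ x)
    {Lx : AddSubgroup (JZero (M * p))} (hLfix : ∀ τ ∈ I1 p A, ∀ z ∈ Lx, τ • z = z)
    (hx : ∀ τ ∈ I1 p A, τ • x - x ∈ Lx) (hcard : Nat.card Lx = p)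
    (W : WildDatum A (σ : Qbar ≃+* Qbar) p (I1 p A) (stab p A x))
    (D : Divisor.degZero (K := Qbar) (F := ↥(modularFunctionFieldBar (M * p))))
    (hDx : Pic0.mk D = x) {h : ↥(modularFunctionFieldBar (M * p))}
    (hC : IsCoreRep F Y W (D : Divisor Qbar ↥(modularFunctionFieldBar (M * p))) h) :
    ∃ a : Node F → ZMod p, HasNodeOrd F x a ∧
      ∃ c : ZMod p, ∀ e, ((NF.w e : ℕ) : ZMod p) * a e = c := by
  classical
  haveI : CharP (ResidueField ↥A) p := Fermat.Agent.S18.ResidueBasics.charP_residueField A hA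
  have hσI : σ ∈ A.inertiaSubgroupIn ℚ := I1_le hσ
  have hH : stab p A x ≤ A.inertiaSubgroupIn ℚ := (stab_le x).trans I1_le
  have hfixK : ∀ c : Qbar, (∀ τ' ∈ stab p A x, τ' c = c) → c ∈ W.toBreakDatum.K' :=
    fun c hc => (W.fixed_iff c).2 hc
  have hHD := hC.stable
  have hh := hC.mem
  have hh0 := hC.ne_zero
  have hdiv := hC.tube
  -- the unit `u` with `p D = div u`
  have hpD : Pic0.mk (p • D) = 0 := by
    have h1 : Pic0.mk (p • D) = p • Pic0.mk D := rfl
    rw [h1, hDx, hpx]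
  have hmem : p • D ∈ (Divisor.principal (K := Qbar)
      (F := ↥(modularFunctionFieldBar (M * p)))).addSubgroupOf
      (Divisor.degZero (K := Qbar) (F := ↥(modularFunctionFieldBar (M * p)))) :=
    (QuotientAddGroup.eq_zero_iff _).mp hpD
  rw [AddSubgroup.mem_addSubgroupOf] at hmem
  obtain ⟨f, hf0, hfdiv⟩ := hmem
  obtain ⟨c0, hc0, u, hfu⟩ := F.X.N.R1.exists_const_mul_unit f hf0
  have hu0 := Fermat.Agent.S34.NodalDisc.coe_unit_ne_zero F.X.N.R1.toBranch u
  have hD : ∀ P : Place Qbar ↥(modularFunctionFieldBar (M * p)),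
      (p : ℤ) * (D : Divisor Qbar ↥(modularFunctionFieldBar (M * p))) P =
        P.ord (((u : F.X.N.R1.O)) : ↥(modularFunctionFieldBar (M * p))) := by
    intro P
    have h1 := hfdiv P
    have hcF : algebraMap Qbar ↥(modularFunctionFieldBar (M * p)) c0 ≠ 0 :=
      (map_ne_zero _).mpr hc0
    rw [hfu, P.ord_mul hcF hu0, Fermat.Agent.S34.KummerZ.ord_algebraMap P hc0, zero_add,
      AddSubgroup.coe_nsmul, Finsupp.smul_apply, nsmul_eq_mul] at h1
    exact h1
  refine ⟨fun e => (((F.X.N.e1 e).ord (F.X.N.R1.red (u : F.X.N.R1.O)) : ℤ) : ZMod p),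
    ⟨D, u, hDx, hD, fun e => rfl⟩, ?_⟩
  -- the node data over `K'`
  have hdat : ∀ e : {b // b ∈ F.X.S},
      ∃ d : NodeDatum F.X.N.R1.toBranch F.X.N.R2.toBranch W.ϖ p u,
        d.Q1 = F.X.N.e1 e ∧ d.w = NF.w e ∧
          d.μ = nodeMoment W.toBreakDatum (NF.ξ e) (Y.tube e)
            (D : Divisor Qbar ↥(modularFunctionFieldBar (M * p))) := by
    intro e
    obtain ⟨G, hG0, hGD, hG1, c, hcK, hc0', hG2, hval⟩ :=
      exists_tubeFunction_node (hA := hA) F Y NF hLC hσI W.toBreakDatum (stab p A x) hH hfixK e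
        (D : Divisor Qbar ↥(modularFunctionFieldBar (M * p))) hHD
    exact exists_datum F Y NF e u (D : Divisor Qbar ↥(modularFunctionFieldBar (M * p))) hD hG0 hGD
      hG1 (exists_unit_of_val W.ϖ_ne hval) hG2
  choose d hd1 hd2 hd3 using hdat
  -- the moments are equal in `k`
  set μ : Place (ResidueField ↥A) ↥(modularFunctionFieldFullC (ResidueField ↥A) M) → ℤ :=
    fun b => if hb : b ∈ F.X.S then
      nodeMoment W.toBreakDatum (NF.ξ ⟨b, hb⟩) (Y.tube ⟨b, hb⟩)
        (D : Divisor Qbar ↥(modularFunctionFieldBar (M * p))) else 0 with hμdef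
  have hnode : ∀ b ∈ F.X.S, ∃ ρ θ : ↥(modularFunctionFieldBar (M * p)),
      IsFactor F.X.N.R1.toBranch F.X.N.R2.toBranch W.toBreakDatum {P | Y.sp1 P = Y.Fr b} h ρ θ 0
        (residue ↥A ⟨W.α, W.α_unit.mem⟩ * ((μ b : ℤ) : ResidueField ↥A)) := by
    intro b hb
    have htube : Y.tube ⟨b, hb⟩ = {P | Y.sp1 P = Y.Fr b} := by
      ext P
      rw [Y.mem_tube_iff, Y.e1_eq ⟨b, hb⟩]
      rfl
    have hμb : μ b = nodeMoment W.toBreakDatum (NF.ξ ⟨b, hb⟩) (Y.tube ⟨b, hb⟩)
        (D : Divisor Qbar ↥(modularFunctionFieldBar (M * p))) := by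
      rw [hμdef]
      exact dif_pos hb
    obtain ⟨ρ, θ, hF⟩ := exists_factor_node (hA := hA) F Y NF hLC hσI W.toBreakDatum
      (stab p A x) hH hfixK ⟨b, hb⟩ (D : Divisor Qbar ↥(modularFunctionFieldBar (M * p))) hHD hh0
      (hdiv ⟨b, hb⟩)
    rw [hμb, ← htube]
    exact ⟨ρ, θ, hF⟩
  have hmom := Fermat.Agent.S44.X0.MomentLC.moment_eq_wild_disc_lc W hLfix hx hcard hσ hσx F Y hLC
    hh hh0 μ hnode hC.good1 hC.good2 hC.bad1
  have hμ : ∀ e e' : {b // b ∈ F.X.S},
      ((((d e).μ : ℤ)) : ResidueField ↥A) = ((((d e').μ : ℤ)) : ResidueField ↥A) := by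
    intro e e'
    have h1 := hmom e.1 e.2 e'.1 e'.2
    have he : μ e.1 = (d e).μ := by
      rw [hd3 e, hμdef]
      exact dif_pos e.2
    have he' : μ e'.1 = (d e').μ := by
      rw [hd3 e', hμdef]
      exact dif_pos e'.2
    rw [he, he'] at h1
    exact h1
  obtain ⟨c, hc⟩ := exists_const_of_wild (NeZero.ne p) W.ϖ_ne W.ϖ_non (hE_wild W) d hμ
  refine ⟨c, fun e => ?_⟩
  have h := hc e
  rw [hd1 e, hd2 e] at h
  exact h

/-! ### the two exports in the literals of `Top/Last` -/

/-- **brick [c]**: the tame export, for every node frame. -/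
theorem hasTameConst : HasTameConst := by
  intro p _ M _ A _ hA hpM F Y hstd hstd2 hLC NF x hpx hfix
  exact tameConst (hA := hA) F Y NF hLC x hpx hfix

/-- **brick [d]**: the PEU export, for every node frame. -/
theorem hasPeuConst : HasPeuConst := by
  intro p _ M _ A _ hA hpM F Y hstd hstd2 hLC NF x hpx σ hσ hσx hz hzfix Lx hLfix hx hcard B hs
  obtain ⟨D, h, hDx, hC⟩ :=
    Fermat.Agent.S44.X0.CoreRepInst.exists_coreRep_frame F Y hstd hstd2 hLC hLfix hx hσ hz B hs
  exact peuConst_of_coreRep (hA := hA) F Y NF hLC x hpx hσ hσx hLfix hx hcard B D hDx hC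

/-- **S44 from the node frames** (`[b] [c] [d] [e]` compiled in). -/
theorem result_of_nodeFrame (hNF : HasNodeFrame) (P : FreyPackage) {N : ℕ}
    (hcond : P.IsConductorLevel N) (hpN : P.p ∣ N)
    (hirr : GaloisRepIsIrreducible (K := AlgebraicClosure ℚ) ℚ P.freyCurve P.p)
    (hmod : P.ModularRepOfLevel N) : ∃ M : ℕ, M ∣ N ∧ ¬ P.p ∣ M ∧ P.ModularRepOfLevel M :=
  result_of_three hNF hasTameConst hasPeuConst P hcond hpN hirr hmod

/-- **S44** (all five bricks of block (iv) compiled in). -/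
theorem result (P : FreyPackage) {N : ℕ}
    (hcond : P.IsConductorLevel N) (hpN : P.p ∣ N)
    (hirr : GaloisRepIsIrreducible (K := AlgebraicClosure ℚ) ℚ P.freyCurve P.p)
    (hmod : P.ModularRepOfLevel N) : ∃ M : ℕ, M ∣ N ∧ ¬ P.p ∣ M ∧ P.ModularRepOfLevel M :=
  result_of_nodeFrame nodeFrame P hcond hpN hirr hmod

end Fermat.Agent.S44.Top.Exports

end
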