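/-
PROJECT P (S44), wiring leaf Top/NonEis (helper21): THE NON-EISENSTEIN PRIME OF THE FREY CURVE IN
THE VOCABULARY OF TOP LOGIC v2, block (iv) (input `r, ar, hne` of the EIS export).

From the landed `S41/NonEis/Main.exists_prime_ap_ne` (irreducibility of `E[p]` ⟹ a prime `r` with
`a_r(E) ≢ r + 1 mod p`), for an ARBITRARY integral model `W` of the Frey curve (the one produced by
`Ent/Frey.exists_phi_tors`): a prime `r ∤ M p`, good for `W`, with
`(a_r : ZMod p) ≠ (r : ZMod p) + 1`.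
-/
import Fermat.Agent.S41.NonEis.Main
import Fermat.Agent.S13.CU.FreyInputs

set_option autoImplicit false

noncomputable section

open WeierstrassCurve WeierstrassCurve.Affine WeierstrassCurve.Affine.Point

namespace Fermat.Agent.S44.Top.NonEis

/-- **the non-Eisenstein prime**: `r ∤ M p`, good, `a_r ≢ r + 1 mod p` -/
theorem exists_prime_ap_ne_frey (P : FreyPackage)
    (hirr : GaloisRepIsIrreducible (K := AlgebraicClosure ℚ) ℚ P.freyCurve P.p)
    {W : WeierstrassCurve ℤ} (hW : W.IsIntegralModelOf P.freyCurve) (M : ℕ) (hM : 0 < M) :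
    ∃ r : Nat.Primes, (r : ℕ) ≠ P.p ∧ ¬ (r : ℕ) ∣ M ∧ ¬ (r : ℕ) ∣ M * P.p ∧
      W.IsGoodPrimeFor (r : ℕ) ∧
      ((W.apOfModel (r : ℕ) : ℤ) : ZMod P.p) ≠ ((r : ℕ) : ZMod P.p) + 1 := by
  have : P.freyCurve.IsElliptic :=
    ⟨isUnit_iff_ne_zero.mpr (Fermat.Agent.S13.CU.FreyInputs.frey_Δ_ne_zero P)⟩
  have hp2 : P.p ≠ 2 := by have := P.hp5; omega
  have hMp : 0 < M * P.p := Nat.mul_pos hM P.hppos
  obtain ⟨r, hr, -, hr1, hgood, hne⟩ :=
    Fermat.Agent.S41.NonEis.Main.exists_prime_ap_ne P.freyCurve hW P.pp hp2 hirr (M * P.p) hMp ∅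
  -- `r ≡ 1 mod M p` and `r` prime: `r ∤ M p`
  have hndvd : ¬ r ∣ M * P.p := by
    intro hd
    have h1 : r ∣ 1 := by
      have h2 : r ≡ 1 [MOD r] := hr1.of_dvd hd
      have h3 : (r : ℕ) ∣ r - 1 := (Nat.modEq_iff_dvd' hr.one_lt.le).mp h2.symm
      have h4 : r - 1 < r := Nat.sub_lt hr.pos one_pos
      have h5 : r - 1 = 0 := Nat.eq_zero_of_dvd_of_lt h3 h4
      have := hr.one_lt
      omega
    exact hr.one_lt.ne' (Nat.dvd_one.mp h1)
  refine ⟨⟨r, hr⟩, fun h => hndvd (h ▸ Dvd.intro_left M rfl), fun h => hndvd (h.mul_right _),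
    hndvd, hgood, fun heq => hne ?_⟩
  have h6 : ((W.apOfModel r - ((r : ℤ) + 1) : ℤ) : ZMod P.p) = 0 := by
    push_cast
    change ((W.apOfModel r : ℤ) : ZMod P.p) = ((r : ℕ) : ZMod P.p) + 1 at heq
    rw [heq]
    ring
  exact (ZMod.intCast_zmod_eq_zero_iff_dvd _ _).mp h6

end Fermat.Agent.S44.Top.NonEis

end
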